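import Mathlib

/-!
# Eigenvectors from faithful Hecke lattices (helper31, P-ES / S30-PADIC)

`exists_eigen_coords`: let `Λ` be a finite free `ℤ`-module with an action of a commutative ring
`P`, and `θ : P →+* O` a ring homomorphism to a domain of characteristic zero which kills the
annihilator of `Λ`. Then `O ⊗ Λ` contains a nonzero simultaneous eigenvector with eigenvalues
`θ a` (stated in coordinates with respect to a `ℤ`-basis of `Λ`).
-/

set_option autoImplicit false
set_option linter.style.haveILetI false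
set_option linter.unusedSectionVars false

open scoped TensorProduct

namespace Fermat.Agent.H31.Tate

/-- Scalar multiplication by `a`, as a `ℤ`-linear map. -/
def smulIntLin {A : Type*} [Ring A] (Λ : Type*) [AddCommGroup Λ] [Module A Λ] (a : A) :
    Λ →ₗ[ℤ] Λ where
  toFun x := a • x
  map_add' := smul_add a
  map_smul' n x := smul_comm a n x

@[simp] theorem smulIntLin_apply {A : Type*} [Ring A] {Λ : Type*} [AddCommGroup Λ] [Module A Λ]
    (a : A) (x : Λ) : smulIntLin Λ a x = a • x := rfl

section Step1

variable {A : Type*} [CommRing A] {Λ : Type*} [AddCommGroup Λ] [Module A Λ]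
  [Module.Finite ℤ Λ] [Module.Free ℤ Λ]

/-- A commutative ring acting faithfully on a finite free `ℤ`-module is a finite `ℤ`-module. -/
theorem finite_int_of_faithful (faithful : ∀ a : A, (∀ x : Λ, a • x = 0) → a = 0) :
    Module.Finite ℤ A := by
  let g : A →ₗ[ℤ] (Λ →ₗ[ℤ] Λ) :=
    { toFun := fun a => smulIntLin Λ a
      map_add' := fun a b => by ext x; simp [add_smul]
      map_smul' := fun n a => by
        ext x
        show (n • a) • x = n • (a • x)
        exact smul_assoc n a x }
  have hg : Function.Injective g := by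
    intro a b hab
    rw [← sub_eq_zero]
    apply faithful
    intro x
    have := congrArg (fun φ : Λ →ₗ[ℤ] Λ => φ x) hab
    simp only [g, LinearMap.coe_mk, AddHom.coe_mk, smulIntLin_apply] at this
    rw [sub_smul, this, sub_self]
  exact Module.Finite.of_injective g hg

/-- **Step 1.** The kernel of a character to a field of characteristic zero is an associated
prime of a faithful lattice. -/
theorem exists_injective_of_faithful (faithful : ∀ a : A, (∀ x : Λ, a • x = 0) → a = 0)
    {K : Type*} [Field K] [CharZero K] (χ : A →+* K) :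
    ∃ f : (A ⧸ RingHom.ker χ) →ₗ[A] Λ, Function.Injective f := by
  haveI hfin : Module.Finite ℤ A := finite_int_of_faithful faithful
  haveI : IsNoetherianRing A := isNoetherian_of_tower ℤ inferInstance
  haveI : Module.Finite A Λ := Module.Finite.of_restrictScalars_finite ℤ A Λ
  haveI hprime : (RingHom.ker χ).IsPrime := RingHom.ker_isPrime χ
  have hann : Module.annihilator A Λ = ⊥ := by
    rw [eq_bot_iff]
    intro a ha
    rw [Module.mem_annihilator] at ha
    exact faithful a ha
  have hmin : RingHom.ker χ ∈ (Module.annihilator A Λ).minimalPrimes := by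
    rw [hann]
    refine ⟨⟨hprime, bot_le⟩, ?_⟩
    rintro q ⟨hq, -⟩ hqp
    by_contra hne
    obtain ⟨x, hx, hxq⟩ := Set.not_subset.1 hne
    haveI := hq
    have hlt := Ideal.comap_lt_comap_of_integral_mem_sdiff (R := ℤ) hqp
      (show x ∈ ((RingHom.ker χ : Ideal A) : Set A) \ q from ⟨hx, hxq⟩)
      (Algebra.IsIntegral.isIntegral x)
    have hbot : (RingHom.ker χ).comap (algebraMap ℤ A) = ⊥ := by
      rw [eq_bot_iff]
      intro n hn
      rw [Ideal.mem_comap, RingHom.mem_ker, eq_intCast, map_intCast] at hn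
      rw [Ideal.mem_bot]
      exact_mod_cast hn
    rw [hbot] at hlt
    exact not_lt_bot hlt
  have hass := Module.associatedPrimes.minimalPrimes_annihilator_subset_associatedPrimes A Λ hmin
  exact ((isAssociatedPrime_iff_exists_injective_linearMap _ _).1 hass).2

end Step1

section Step2

variable {R : Type*} [CommRing R] [Module.Finite ℤ R] {K : Type*} [Field K]

/-- **Step 2.** In `K ⊗ R` there is a nonzero element on which `R` acts through a given
character `ψ : R →+* K`. -/
theorem exists_tensor_eigen (ψ : R →+* K) :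
    ∃ ε : K ⊗[ℤ] R, ε ≠ 0 ∧ ∀ r : R, ((1 : K) ⊗ₜ[ℤ] r) * ε = ψ r • ε := by
  haveI : IsArtinianRing (K ⊗[ℤ] R) := IsArtinianRing.of_finite K (K ⊗[ℤ] R)
  let μ : (K ⊗[ℤ] R) →ₐ[K] K :=
    Algebra.TensorProduct.lift (AlgHom.id K K) ψ.toIntAlgHom (fun _ _ => Commute.all _ _)
  have hμ : ∀ (c : K) (r : R), μ (c ⊗ₜ[ℤ] r) = c * ψ r := by
    intro c r
    simp [μ]
  haveI hprime : (RingHom.ker μ.toRingHom).IsPrime := RingHom.ker_isPrime _
  have hann : Module.annihilator (K ⊗[ℤ] R) (K ⊗[ℤ] R) = ⊥ := by
    rw [eq_bot_iff]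
    intro a ha
    rw [Module.mem_annihilator] at ha
    have := ha 1
    rwa [smul_eq_mul, mul_one] at this
  have hmin : RingHom.ker μ.toRingHom ∈
      (Module.annihilator (K ⊗[ℤ] R) (K ⊗[ℤ] R)).minimalPrimes :=
    IsArtinianRing.mem_minimalPrimes (hann ▸ bot_le)
  have hass := Module.associatedPrimes.minimalPrimes_annihilator_subset_associatedPrimes
    (K ⊗[ℤ] R) (K ⊗[ℤ] R) hmin
  obtain ⟨-, ε, hε⟩ := isAssociatedPrime_iff.1 hass
  have hmem : ∀ c : K ⊗[ℤ] R, μ c = 0 ↔ c * ε = 0 := by
    intro c
    have : c ∈ RingHom.ker μ.toRingHom ↔ c ∈ Submodule.colon (⊥ : Submodule _ (K ⊗[ℤ] R)) {ε} := by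
      rw [← hε]
    rw [RingHom.mem_ker, Submodule.mem_colon_singleton, Submodule.mem_bot, smul_eq_mul] at this
    exact this
  refine ⟨ε, ?_, fun r => ?_⟩
  · rintro rfl
    have := (hmem 1).2 (by simp)
    rw [map_one] at this
    exact one_ne_zero this
  · have h0 : μ ((1 : K) ⊗ₜ[ℤ] r - algebraMap K (K ⊗[ℤ] R) (ψ r)) = 0 := by
      rw [map_sub, hμ, one_mul, AlgHom.commutes, Algebra.algebraMap_self, RingHom.id_apply,
        sub_self]
    have := (hmem _).1 h0
    rw [sub_mul, sub_eq_zero] at this
    rw [this]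
    exact (Algebra.smul_def (ψ r) ε).symm

end Step2

section Step3

variable {A : Type*} [CommRing A] {Λ : Type*} [AddCommGroup Λ] [Module A Λ]
  [Module.Finite ℤ Λ] [Module.Free ℤ Λ]

theorem smulIntLin_baseChange_self {R : Type*} [CommRing R] {K : Type*} [Field K] (r : R)
    (x : K ⊗[ℤ] R) : (smulIntLin R r).baseChange K x = ((1 : K) ⊗ₜ[ℤ] r) * x := by
  induction x using TensorProduct.induction_on with
  | zero => simp
  | tmul c s =>
    rw [LinearMap.baseChange_tmul, Algebra.TensorProduct.tmul_mul_tmul, one_mul]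
    rfl
  | add x y hx hy => rw [map_add, hx, hy, mul_add]

/-- **Step 3.** A faithful lattice contains, after extension of scalars to a field of
characteristic zero, a nonzero eigenvector for every character. -/
theorem exists_eigenvector_of_faithful (faithful : ∀ a : A, (∀ x : Λ, a • x = 0) → a = 0)
    {K : Type*} [Field K] [CharZero K] (χ : A →+* K) :
    ∃ v : K ⊗[ℤ] Λ, v ≠ 0 ∧ ∀ a : A, (smulIntLin Λ a).baseChange K v = χ a • v := by
  obtain ⟨f, hf⟩ := exists_injective_of_faithful faithful χ
  haveI hfinA : Module.Finite ℤ A := finite_int_of_faithful faithful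
  haveI : Module.Finite ℤ (A ⧸ RingHom.ker χ) :=
    Module.Finite.of_surjective
      ((Ideal.Quotient.mk (RingHom.ker χ)).toAddMonoidHom.toIntLinearMap)
      Ideal.Quotient.mk_surjective
  obtain ⟨ε, hε0, hε⟩ := exists_tensor_eigen (K := K) (RingHom.kerLift χ)
  set fZ : (A ⧸ RingHom.ker χ) →ₗ[ℤ] Λ := f.restrictScalars ℤ with hfZ
  have hinj : Function.Injective (fZ.baseChange K) := by
    rw [LinearMap.baseChange_eq_ltensor]
    exact Module.Flat.lTensor_preserves_injective_linearMap (M := K) fZ hf
  refine ⟨fZ.baseChange K ε, fun h => hε0 (hinj (by rw [h, map_zero])), fun a => ?_⟩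
  have hcomm : (smulIntLin Λ a) ∘ₗ fZ
      = fZ ∘ₗ (smulIntLin (A ⧸ RingHom.ker χ) (Ideal.Quotient.mk (RingHom.ker χ) a)) := by
    refine LinearMap.ext fun r => ?_
    show a • f r = f (Ideal.Quotient.mk (RingHom.ker χ) a * r)
    rw [← map_smul, Algebra.smul_def]
    rfl
  have h1 : (smulIntLin Λ a).baseChange K (fZ.baseChange K ε)
      = fZ.baseChange K ((smulIntLin (A ⧸ RingHom.ker χ)
          (Ideal.Quotient.mk (RingHom.ker χ) a)).baseChange K ε) := by
    rw [← LinearMap.comp_apply, ← LinearMap.baseChange_comp, hcomm, LinearMap.baseChange_comp,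
      LinearMap.comp_apply]
  rw [h1, smulIntLin_baseChange_self, hε, map_smul, RingHom.kerLift_mk]

end Step3

section Coords

variable {P : Type*} [CommRing P] {Λ : Type*} [AddCommGroup Λ] [Module P Λ]

/-- **Eigenvectors in coordinates.** Let `Λ` be a `ℤ`-lattice with basis `b` and an action of the
commutative ring `P`, and `θ : P →+* O` a character to a domain of characteristic zero killing
the annihilator of `Λ`. Then there is a nonzero vector `c ∈ Oⁿ` with
`∑ j, [a]ᵢⱼ c j = θ a * c i` for all `a ∈ P`, where `[a]` is the matrix of `a` on `Λ`. -/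
theorem exists_eigen_coords_aux {n : ℕ} (b : Module.Basis (Fin n) ℤ Λ)
    {O : Type*} [CommRing O] [IsDomain O] [CharZero O]
    (K : Type*) [Field K] [Algebra O K] [IsFractionRing O K]
    (θ : P →+* O) (hθ : ∀ a : P, (∀ x : Λ, a • x = 0) → θ a = 0) :
    ∃ c : Fin n → O, c ≠ 0 ∧ ∀ (a : P) (i : Fin n),
      ∑ j, ((b.repr (a • b j) i : ℤ) : O) * c j = θ a * c i := by
  classical
  haveI : Module.Finite ℤ Λ := Module.Finite.of_basis b
  haveI : Module.Free ℤ Λ := Module.Free.of_basis b
  haveI : CharZero K := charZero_of_injective_algebraMap (IsFractionRing.injective O K)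
  letI : Module (P ⧸ Module.annihilator P Λ) Λ := Module.quotientAnnihilator
  have hmk : ∀ (a : P) (x : Λ), (Ideal.Quotient.mk (Module.annihilator P Λ) a) • x = a • x :=
    fun a x => rfl
  have faithful : ∀ a : P ⧸ Module.annihilator P Λ, (∀ x : Λ, a • x = 0) → a = 0 := by
    intro a ha
    obtain ⟨a, rfl⟩ := Ideal.Quotient.mk_surjective a
    rw [Ideal.Quotient.eq_zero_iff_mem, Module.mem_annihilator]
    intro x
    rw [← hmk]
    exact ha x
  set χ : (P ⧸ Module.annihilator P Λ) →+* K :=
    Ideal.Quotient.lift _ ((algebraMap O K).comp θ) (by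
      intro a ha
      rw [RingHom.comp_apply, hθ a (Module.mem_annihilator.1 ha), map_zero]) with hχ
  obtain ⟨v, hv0, hv⟩ := exists_eigenvector_of_faithful faithful χ
  set bK := Algebra.TensorProduct.basis K b with hbK
  -- coordinates over `K`
  have hrepr : bK.repr v ≠ 0 := fun h => hv0 (by simpa using h)
  have heq : ∀ (a : P) (i : Fin n),
      ∑ j, ((b.repr (a • b j) i : ℤ) : K) * bK.repr v j = algebraMap O K (θ a) * bK.repr v i := by
    intro a i
    have h1 := hv (Ideal.Quotient.mk _ a)
    have h2 := congrArg (fun w => bK.repr w i) h1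
    simp only [map_smul, Finsupp.smul_apply, smul_eq_mul] at h2
    rw [hχ, Ideal.Quotient.lift_mk, RingHom.comp_apply] at h2
    rw [← h2, ← LinearMap.toMatrix_mulVec_repr bK bK, LinearMap.toMatrix_baseChange,
      Matrix.mulVec, dotProduct]
    refine Finset.sum_congr rfl fun j _ => ?_
    rw [Matrix.map_apply, LinearMap.toMatrix_apply]
    simp [smulIntLin_apply, hmk]
  -- clear denominators
  obtain ⟨d, hd⟩ := IsLocalization.exist_integer_multiples_of_finite (nonZeroDivisors O)
    (fun i => bK.repr v i)
  choose c hc using hd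
  have hd0 : (d : O) ≠ 0 := nonZeroDivisors.ne_zero d.2
  refine ⟨c, ?_, fun a i => ?_⟩
  · intro h0
    apply hrepr
    ext i
    have := hc i
    rw [h0, Pi.zero_apply, map_zero, Algebra.smul_def] at this
    rcases mul_eq_zero.1 this.symm with h | h
    · exact absurd ((map_eq_zero_iff _ (IsFractionRing.injective O K)).1 h) hd0
    · simpa using h
  · apply IsFractionRing.injective O K
    rw [map_sum, map_mul]
    simp only [map_mul, map_intCast, hc, Algebra.smul_def]
    have := heq a i
    calc ∑ j, ((b.repr (a • b j) i : ℤ) : K) * (algebraMap O K d * bK.repr v j)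
        = algebraMap O K d * ∑ j, ((b.repr (a • b j) i : ℤ) : K) * bK.repr v j := by
          rw [Finset.mul_sum]
          exact Finset.sum_congr rfl fun j _ => by ring
      _ = algebraMap O K (θ a) * (algebraMap O K d * bK.repr v i) := by rw [this]; ring

/-- **Eigenvectors in coordinates.** Let `Λ` be a `ℤ`-lattice with basis `b` and an action of the
commutative ring `P`, and `θ : P →+* O` a character to a domain of characteristic zero killing
the annihilator of `Λ`. Then there is a nonzero vector `c ∈ Oⁿ` with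
`∑ j, [a]ᵢⱼ c j = θ a * c i` for all `a ∈ P`, where `[a]` is the matrix of `a` on `Λ`. -/
theorem exists_eigen_coords {n : ℕ} (b : Module.Basis (Fin n) ℤ Λ)
    {O : Type*} [CommRing O] [IsDomain O] [CharZero O]
    (θ : P →+* O) (hθ : ∀ a : P, (∀ x : Λ, a • x = 0) → θ a = 0) :
    ∃ c : Fin n → O, c ≠ 0 ∧ ∀ (a : P) (i : Fin n),
      ∑ j, ((b.repr (a • b j) i : ℤ) : O) * c j = θ a * c i :=
  exists_eigen_coords_aux b (FractionRing O) θ hθ

end Coords

end Fermat.Agent.H31.Tate
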