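import Mathlib

/-!
# Complete Nakayama lemma, principal case (helper31, P-ES / S30-PADIC)

`span_eq_top_of_forall_exists_add_smul`: if `R` is `a`-adically precomplete, `M` is `a`-adically
separated, and a finite set `s` generates `M` modulo `a M`, then `s` generates `M`.
-/

set_option autoImplicit false

namespace Fermat.Agent.H31.Tate

open Submodule

section

variable {R M : Type*} [CommRing R] [AddCommGroup M] [Module R M]

/-- The recursion used in the proof: remainders. -/
noncomputable def nakRem (a : R) (s : Finset M)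
    (h : ∀ x : M, ∃ f : M → R, ∃ z : M, x = ∑ i ∈ s, f i • i + a • z) (x : M) : ℕ → M
  | 0 => x
  | n + 1 => (h (nakRem a s h x n)).choose_spec.choose

noncomputable def nakCoeff (a : R) (s : Finset M)
    (h : ∀ x : M, ∃ f : M → R, ∃ z : M, x = ∑ i ∈ s, f i • i + a • z) (x : M) (n : ℕ) : M → R :=
  (h (nakRem a s h x n)).choose

theorem nakRem_spec (a : R) (s : Finset M)
    (h : ∀ x : M, ∃ f : M → R, ∃ z : M, x = ∑ i ∈ s, f i • i + a • z) (x : M) (n : ℕ) :
    nakRem a s h x n = ∑ i ∈ s, nakCoeff a s h x n i • i + a • nakRem a s h x (n + 1) :=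
  (h (nakRem a s h x n)).choose_spec.choose_spec

theorem nak_partial (a : R) (s : Finset M)
    (h : ∀ x : M, ∃ f : M → R, ∃ z : M, x = ∑ i ∈ s, f i • i + a • z) (x : M) (n : ℕ) :
    x = ∑ i ∈ s, (∑ m ∈ Finset.range n, a ^ m * nakCoeff a s h x m i) • i
      + a ^ n • nakRem a s h x n := by
  induction n with
  | zero => simp [nakRem]
  | succ n ih =>
    conv_lhs => rw [ih, nakRem_spec a s h x n]
    simp only [Finset.sum_range_succ, add_smul, Finset.sum_add_distrib, smul_add,
      Finset.smul_sum, smul_smul, pow_succ]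
    abel

/-- **Complete Nakayama lemma**, principal case. -/
theorem span_eq_top_of_forall_exists_add_smul (a : R) [IsPrecomplete (Ideal.span {a}) R]
    (hM : ∀ x : M, (∀ n : ℕ, ∃ y : M, x = a ^ n • y) → x = 0)
    (s : Finset M)
    (h : ∀ x : M, ∃ y ∈ Submodule.span R (s : Set M), ∃ z : M, x = y + a • z) :
    Submodule.span R (s : Set M) = ⊤ := by
  have h' : ∀ x : M, ∃ f : M → R, ∃ z : M, x = ∑ i ∈ s, f i • i + a • z := by
    intro x
    obtain ⟨y, hy, z, hz⟩ := h x
    obtain ⟨f, -, hf⟩ := Submodule.mem_span_finset.1 hy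
    exact ⟨f, z, by rw [hf]; exact hz⟩
  rw [eq_top_iff]
  intro x _
  -- the partial sums of the coefficients
  set A : ℕ → M → R := fun n i => ∑ m ∈ Finset.range n, a ^ m * nakCoeff a s h' x m i with hA
  have hcauchy : ∀ i : M, ∀ {m n : ℕ}, m ≤ n →
      A m i ≡ A n i [SMOD ((Ideal.span {a}) ^ m • ⊤ : Submodule R R)] := by
    intro i m n hmn
    rw [SModEq.sub_mem]
    have : A m i - A n i = -∑ k ∈ Finset.Ico m n, a ^ k * nakCoeff a s h' x k i := by
      simp only [hA]
      rw [Finset.sum_Ico_eq_sub _ hmn]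
      ring
    rw [this]
    refine Submodule.neg_mem _ (Submodule.sum_mem _ fun k hk => ?_)
    rw [smul_eq_mul, Ideal.mul_top, Ideal.span_singleton_pow, Ideal.mem_span_singleton]
    exact Dvd.dvd.mul_right (pow_dvd_pow a (Finset.mem_Ico.1 hk).1) _
  have hlim : ∀ i : M, ∃ L : R, ∀ n,
      A n i ≡ L [SMOD ((Ideal.span {a}) ^ n • ⊤ : Submodule R R)] :=
    fun i => IsPrecomplete.prec inferInstance (hcauchy i)
  choose L hL using hlim
  have hx : x = ∑ i ∈ s, L i • i := by
    rw [← sub_eq_zero]
    apply hM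
    intro n
    have hr : ∀ i : M, ∃ r : R, A n i - L i = a ^ n * r := by
      intro i
      have := hL i n
      rw [SModEq.sub_mem, smul_eq_mul, Ideal.mul_top, Ideal.span_singleton_pow,
        Ideal.mem_span_singleton] at this
      exact this
    choose r hr using hr
    refine ⟨∑ i ∈ s, r i • i + nakRem a s h' x n, ?_⟩
    conv_lhs => rw [nak_partial a s h' x n]
    have e : ∀ i, (∑ m ∈ Finset.range n, a ^ m * nakCoeff a s h' x m i) = L i + a ^ n * r i := by
      intro i
      have := hr i
      simp only [hA] at this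
      linear_combination this
    simp only [e, add_smul, Finset.sum_add_distrib, smul_add, Finset.smul_sum, smul_smul]
    abel
  rw [hx]
  exact Submodule.sum_mem _ fun i hi => Submodule.smul_mem _ _ (Submodule.subset_span hi)

end

end Fermat.Agent.H31.Tate
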