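import Mathlib
import Fermat.Agent.H31.Tate.Nakayama

/-!
# The `p`-adic Tate module of an abelian group (helper31, P-ES / S30-PADIC)

For an additive commutative group `J` and a prime `p`, `TateModule p J` is the group of
sequences `(x_k)` in `J` with `x_0 = 0` and `p • x_{k+1} = x_k`. It is a `ℤ_[p]`-module,
torsion-free and `p`-adically separated; it is finitely generated (hence free) as soon as `J[p]`
is finite. Additive maps induce `ℤ_[p]`-linear maps.
-/

set_option autoImplicit false
set_option linter.unusedSectionVars false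

namespace Fermat.Agent.H31.Tate

variable (p : ℕ) [hp : Fact p.Prime] (J : Type*) [AddCommGroup J]

/-- The subgroup of `p`-compatible sequences. -/
def tateSubgroup : AddSubgroup (ℕ → J) where
  carrier := {x | x 0 = 0 ∧ ∀ k, p • x (k + 1) = x k}
  zero_mem' := ⟨rfl, fun k => by simp⟩
  add_mem' := by
    rintro x y ⟨hx0, hx⟩ ⟨hy0, hy⟩
    exact ⟨by simp [hx0, hy0], fun k => by simp [smul_add, hx k, hy k]⟩
  neg_mem' := by
    rintro x ⟨hx0, hx⟩
    exact ⟨by simp [hx0], fun k => by simp [hx k]⟩

/-- The `p`-adic Tate module of `J`. -/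
abbrev TateModule : Type _ := tateSubgroup p J

variable {p J}

namespace TateModule

theorem zero_apply' (x : TateModule p J) : x.1 0 = 0 := x.2.1

theorem smul_succ (x : TateModule p J) (k : ℕ) : p • x.1 (k + 1) = x.1 k := x.2.2 k

theorem pow_smul_add (x : TateModule p J) (k n : ℕ) : p ^ n • x.1 (k + n) = x.1 k := by
  induction n with
  | zero => simp
  | succ n ih =>
    rw [pow_succ, mul_smul, ← add_assoc, smul_succ, ih]

theorem pow_smul_eq_zero (x : TateModule p J) (k : ℕ) : p ^ k • x.1 k = 0 := by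
  have := pow_smul_add x 0 k
  rwa [zero_add, zero_apply'] at this

theorem pow_smul_eq_zero_of_le (x : TateModule p J) {k n : ℕ} (h : k ≤ n) :
    p ^ n • x.1 k = 0 := by
  obtain ⟨m, rfl⟩ := Nat.exists_eq_add_of_le h
  rw [pow_add, mul_comm, mul_smul, pow_smul_eq_zero, smul_zero]

end TateModule

/-- `n • y` only depends on `n` modulo `N` when `N • y = 0`. -/
theorem nsmul_eq_mod_nsmul {y : J} {N : ℕ} (hy : N • y = 0) (n : ℕ) : n • y = (n % N) • y := by
  conv_lhs => rw [← Nat.div_add_mod n N, add_smul, mul_smul, smul_comm, hy, smul_zero, zero_add]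

theorem nsmul_congr_of_modEq {y : J} {N : ℕ} (hy : N • y = 0) {n m : ℕ} (h : n % N = m % N) :
    n • y = m • y := by
  rw [nsmul_eq_mod_nsmul hy n, nsmul_eq_mod_nsmul hy m, h]

theorem val_nsmul_eq {y : J} {N : ℕ} [NeZero N] (hy : N • y = 0) (a : ZMod N) (n : ℕ)
    (h : (n : ZMod N) = a) : a.val • y = n • y := by
  apply nsmul_congr_of_modEq hy
  rw [← h, ZMod.val_natCast, Nat.mod_mod]

namespace TateModule

/-- The scalar action of `ℤ_[p]`. -/
noncomputable instance instSMulPadic : SMul ℤ_[p] (TateModule p J) where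
  smul a x := ⟨fun k => (PadicInt.toZModPow k a).val • x.1 k, by
    refine ⟨by simp [zero_apply'], fun k => ?_⟩
    show p • (PadicInt.toZModPow (k + 1) a).val • x.1 (k + 1)
      = (PadicInt.toZModPow k a).val • x.1 k
    rw [smul_comm, smul_succ]
    symm
    apply val_nsmul_eq (pow_smul_eq_zero x k)
    rw [ZMod.natCast_val, PadicInt.cast_toZModPow k (k + 1) (Nat.le_succ k)]⟩

theorem smul_apply (a : ℤ_[p]) (x : TateModule p J) (k : ℕ) :
    (a • x).1 k = (PadicInt.toZModPow k a).val • x.1 k := rfl

theorem smul_apply_of_cast (a : ℤ_[p]) (x : TateModule p J) (k : ℕ) (n : ℕ)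
    (h : (n : ZMod (p ^ k)) = PadicInt.toZModPow k a) :
    (a • x).1 k = n • x.1 k := by
  rw [smul_apply]
  exact val_nsmul_eq (pow_smul_eq_zero x k) _ n h

noncomputable instance instModulePadic : Module ℤ_[p] (TateModule p J) where
  one_smul x := by
    apply Subtype.ext
    funext k
    rw [smul_apply_of_cast 1 x k 1 (by simp), one_smul]
  mul_smul a b x := by
    apply Subtype.ext
    funext k
    rw [smul_apply_of_cast (a * b) x k
      ((PadicInt.toZModPow k a).val * (PadicInt.toZModPow k b).val) (by simp),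
      smul_apply, smul_apply, mul_smul]
  smul_zero a := by
    apply Subtype.ext
    funext k
    simp [smul_apply]
  smul_add a x y := by
    apply Subtype.ext
    funext k
    simp [smul_apply, smul_add]
  add_smul a b x := by
    apply Subtype.ext
    funext k
    rw [smul_apply_of_cast (a + b) x k
      ((PadicInt.toZModPow k a).val + (PadicInt.toZModPow k b).val) (by simp)]
    simp [smul_apply, add_smul]
  zero_smul x := by
    apply Subtype.ext
    funext k
    rw [smul_apply_of_cast 0 x k 0 (by simp), zero_smul]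
    rfl

theorem natCast_smul_apply (n : ℕ) (x : TateModule p J) (k : ℕ) :
    ((n : ℤ_[p]) • x).1 k = n • x.1 k :=
  smul_apply_of_cast _ x k n (by simp)

theorem p_pow_smul_apply (n : ℕ) (x : TateModule p J) (k : ℕ) :
    (((p : ℤ_[p]) ^ n) • x).1 k = p ^ n • x.1 k := by
  have : ((p : ℤ_[p]) ^ n) = ((p ^ n : ℕ) : ℤ_[p]) := by push_cast; rfl
  rw [this, natCast_smul_apply]

/-- The projection to level `k`. -/
def proj (k : ℕ) : TateModule p J →+ J where
  toFun x := x.1 k
  map_zero' := rfl
  map_add' _ _ := rfl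

@[simp] theorem proj_apply (k : ℕ) (x : TateModule p J) : proj k x = x.1 k := rfl

/-- The shift: an element vanishing at level `n` is divisible by `p ^ n`. -/
theorem exists_eq_pow_smul_of_apply_eq_zero (x : TateModule p J) (n : ℕ) (h : x.1 n = 0) :
    ∃ y : TateModule p J, x = ((p : ℤ_[p]) ^ n) • y := by
  refine ⟨⟨fun k => x.1 (k + n), ?_, fun k => ?_⟩, ?_⟩
  · show x.1 (0 + n) = 0
    rw [zero_add, h]
  · show p • x.1 (k + 1 + n) = x.1 (k + n)
    rw [Nat.add_right_comm, smul_succ]
  · apply Subtype.ext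
    funext k
    rw [p_pow_smul_apply]
    exact (pow_smul_add x k n).symm

theorem apply_eq_zero_of_eq_pow_smul {x y : TateModule p J} {n : ℕ}
    (h : x = ((p : ℤ_[p]) ^ n) • y) {k : ℕ} (hk : k ≤ n) : x.1 k = 0 := by
  rw [h, p_pow_smul_apply]
  exact pow_smul_eq_zero_of_le y hk

theorem eq_zero_of_forall_apply_eq_zero {x : TateModule p J} (h : ∀ k, x.1 k = 0) : x = 0 := by
  apply Subtype.ext
  funext k
  exact h k

/-- `T_p J` is `p`-adically separated. -/
theorem eq_zero_of_forall_exists_pow_smul (x : TateModule p J)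
    (h : ∀ n : ℕ, ∃ y : TateModule p J, x = ((p : ℤ_[p]) ^ n) • y) : x = 0 := by
  apply eq_zero_of_forall_apply_eq_zero
  intro k
  obtain ⟨y, hy⟩ := h k
  exact apply_eq_zero_of_eq_pow_smul hy le_rfl

theorem p_pow_smul_injective (n : ℕ) {x : TateModule p J} (h : ((p : ℤ_[p]) ^ n) • x = 0) :
    x = 0 := by
  apply eq_zero_of_forall_apply_eq_zero
  intro k
  have := congrArg (fun z : TateModule p J => z.1 (k + n)) h
  simp only [p_pow_smul_apply] at this
  rw [pow_smul_add] at this
  exact this

/-- `T_p J` is torsion-free over `ℤ_[p]`. -/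
theorem smul_eq_zero_imp {a : ℤ_[p]} {x : TateModule p J} (h : a • x = 0) : a = 0 ∨ x = 0 := by
  by_cases ha : a = 0
  · exact Or.inl ha
  · right
    have hspec := PadicInt.unitCoeff_spec ha
    rw [hspec, mul_smul] at h
    have h2 : ((p : ℤ_[p]) ^ a.valuation) • x = 0 := by
      have := congrArg (fun z => ((PadicInt.unitCoeff ha)⁻¹ : ℤ_[p]ˣ) • z) h
      simpa [Units.smul_def, smul_smul] using this
    exact p_pow_smul_injective _ h2

end TateModule

end Fermat.Agent.H31.Tate
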