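import Mathlib
import Fermat.Agent.H31.Tate.Module

/-!
# Finiteness, freeness and functoriality of the Tate module (helper31, P-ES / S30-PADIC)
-/

set_option autoImplicit false
set_option linter.unusedSectionVars false

namespace Fermat.Agent.H31.Tate

variable {p : ℕ} [hp : Fact p.Prime] {J : Type*} [AddCommGroup J]

namespace TateModule

instance instIsTorsionFree : Module.IsTorsionFree ℤ_[p] (TateModule p J) :=
  Module.isTorsionFree_iff_smul_eq_zero.2 fun _ _ h => smul_eq_zero_imp h

instance instIsPrecompletePadic : IsPrecomplete (Ideal.span {(p : ℤ_[p])}) ℤ_[p] := by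
  have h : IsAdicComplete (IsLocalRing.maximalIdeal ℤ_[p]) ℤ_[p] := inferInstance
  rw [PadicInt.maximalIdeal_eq_span_p] at h
  exact h.toIsPrecomplete

/-- If `J[p]` is finite, the Tate module is a finitely generated `ℤ_[p]`-module. -/
theorem finite_of_finite_torsion (hfin : {x : J | p • x = 0}.Finite) :
    Module.Finite ℤ_[p] (TateModule p J) := by
  classical
  -- the image of the projection to level one is finite
  have hrange : (Set.range fun x : TateModule p J => x.1 1).Finite := by
    refine hfin.subset ?_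
    rintro _ ⟨x, rfl⟩
    show p • x.1 1 = 0
    have := pow_smul_eq_zero x 1
    rwa [pow_one] at this
  -- choose preimages
  have hch : ∀ y : hrange.toFinset, ∃ x : TateModule p J, x.1 1 = y.1 := by
    rintro ⟨y, hy⟩
    rw [Set.Finite.mem_toFinset] at hy
    exact hy
  choose g hg using hch
  set s : Finset (TateModule p J) := Finset.univ.image g with hs
  refine ⟨⟨s, ?_⟩⟩
  apply span_eq_top_of_forall_exists_add_smul (p : ℤ_[p])
  · intro x hx
    exact eq_zero_of_forall_exists_pow_smul x hx
  · intro x
    have hx : x.1 1 ∈ hrange.toFinset := by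
      rw [Set.Finite.mem_toFinset]
      exact ⟨x, rfl⟩
    refine ⟨g ⟨x.1 1, hx⟩, Submodule.subset_span ?_, ?_⟩
    · rw [hs, Finset.coe_image]
      exact ⟨_, by simp, rfl⟩
    · have h1 : (x - g ⟨x.1 1, hx⟩).1 1 = 0 := by
        show x.1 1 - (g ⟨x.1 1, hx⟩).1 1 = 0
        rw [hg]
        exact sub_self _
      obtain ⟨z, hz⟩ := exists_eq_pow_smul_of_apply_eq_zero _ 1 h1
      refine ⟨z, ?_⟩
      rw [pow_one] at hz
      rw [← hz]
      abel

/-- If `J[p]` is finite, the Tate module is a free `ℤ_[p]`-module. -/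
theorem free_of_finite_torsion (hfin : {x : J | p • x = 0}.Finite) :
    Module.Free ℤ_[p] (TateModule p J) :=
  haveI := finite_of_finite_torsion hfin
  inferInstance

/-! ### Functoriality -/

variable {J' : Type*} [AddCommGroup J'] {J'' : Type*} [AddCommGroup J'']

/-- The map induced on Tate modules by an additive map. -/
noncomputable def map (f : J →+ J') : TateModule p J →ₗ[ℤ_[p]] TateModule p J' where
  toFun x := ⟨fun k => f (x.1 k), by
    refine ⟨by simp [zero_apply'], fun k => ?_⟩
    show p • f (x.1 (k + 1)) = f (x.1 k)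
    rw [← map_nsmul, smul_succ]⟩
  map_add' x y := by
    apply Subtype.ext
    funext k
    exact map_add f _ _
  map_smul' a x := by
    apply Subtype.ext
    funext k
    show f ((a • x).1 k) = _
    rw [smul_apply, map_nsmul]
    rfl

@[simp] theorem map_apply (f : J →+ J') (x : TateModule p J) (k : ℕ) :
    (map f x).1 k = f (x.1 k) := rfl

theorem map_id : map (AddMonoidHom.id J) = (LinearMap.id : TateModule p J →ₗ[ℤ_[p]] _) := by
  ext x
  rfl

theorem map_comp (g : J' →+ J'') (f : J →+ J') :
    (map (g.comp f) : TateModule p J →ₗ[ℤ_[p]] _) = (map g).comp (map f) := by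
  ext x
  rfl

theorem map_add_hom (f g : J →+ J') :
    (map (f + g) : TateModule p J →ₗ[ℤ_[p]] _) = map f + map g := by
  ext x
  rfl

theorem map_sub_hom (f g : J →+ J') :
    (map (f - g) : TateModule p J →ₗ[ℤ_[p]] _) = map f - map g := by
  ext x
  rfl

theorem map_zero_hom : (map (0 : J →+ J') : TateModule p J →ₗ[ℤ_[p]] _) = 0 := by
  ext x
  rfl

theorem map_nsmul_hom (n : ℕ) (f : J →+ J') :
    (map (n • f) : TateModule p J →ₗ[ℤ_[p]] _) = (n : ℤ_[p]) • map f := by
  ext x k
  show n • f (x.1 k) = (((n : ℤ_[p]) • map f x : TateModule p J').1 k)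
  rw [natCast_smul_apply]
  rfl

/-- Two additive maps agreeing on `p`-power torsion induce the same map on Tate modules. -/
theorem map_congr {f g : J →+ J'} (h : ∀ x : J, (∃ n : ℕ, p ^ n • x = 0) → f x = g x) :
    (map f : TateModule p J →ₗ[ℤ_[p]] _) = map g := by
  ext x k
  exact h _ ⟨k, pow_smul_eq_zero x k⟩

/-- If `f` agrees with the identity on `J[p ^ n]`, then `map f - 1` is divisible by `p ^ n`. -/
theorem exists_map_sub_eq_pow_smul {f : J →+ J} {n : ℕ}
    (h : ∀ x : J, p ^ n • x = 0 → f x = x) (x : TateModule p J) :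
    ∃ y : TateModule p J, map f x - x = ((p : ℤ_[p]) ^ n) • y := by
  apply exists_eq_pow_smul_of_apply_eq_zero
  show f (x.1 n) - x.1 n = 0
  rw [h _ (pow_smul_eq_zero x n), sub_self]

end TateModule

end Fermat.Agent.H31.Tate
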