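import Mathlib
import Fermat.Agent.H31.Tate.Eigen
import Fermat.Agent.H37.ESAdic.Abstract

/-!
# Occurrence from Kummer embeddings and faithfulness (helper31, P-ES / S30-PADIC, block (B))

`kummerOccurs : Fermat.Agent.H37.KummerOccursStatement`.
-/

set_option autoImplicit false
set_option linter.unusedSectionVars false
set_option linter.style.haveILetI false

open scoped TensorProduct

namespace Fermat.Agent.H31.Tate

section Primitive

variable {O : Type*} [CommRing O] [IsDomain O]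

/-- Dividing a nonzero vector by the largest power of `π` dividing all its coordinates. -/
theorem exists_primitive_aux {n : ℕ} (π : O) (m₀ : ℕ) :
    ∀ (c : Fin n → O) (j₀ : Fin n), ¬ π ^ m₀ ∣ c j₀ →
      ∃ (m : ℕ) (c' : Fin n → O), (∀ j, c j = π ^ m * c' j) ∧ ∃ j, ¬ π ∣ c' j := by
  induction m₀ with
  | zero => intro c j₀ h; exact absurd (by simp) h
  | succ m₀ ih =>
    intro c j₀ h
    by_cases hall : ∀ j, π ∣ c j
    · choose d hd using hall
      have hd0 : ¬ π ^ m₀ ∣ d j₀ := by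
        intro hdvd
        apply h
        rw [hd j₀, pow_succ']
        exact mul_dvd_mul_left π hdvd
      obtain ⟨m, c', hc', hj⟩ := ih d j₀ hd0
      refine ⟨m + 1, c', fun j => ?_, hj⟩
      rw [hd j, hc' j, pow_succ']
      ring
    · push Not at hall
      exact ⟨0, c, fun j => by simp, hall⟩

end Primitive

section Coords

variable {O : Type*} [CommRing O] [IsDomain O] [CharZero O]
  {Λ : Type*} [AddCommGroup Λ] {J : Type*} [AddCommGroup J]

/-- The vector of `O ⊗ J` with coordinates `c` along the images of a basis. -/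
noncomputable def kummerVec {n : ℕ} (b : Module.Basis (Fin n) ℤ Λ) (κ : Λ →+ J)
    (c : Fin n → O) : O ⊗[ℤ] J :=
  ∑ j, c j ⊗ₜ[ℤ] κ (b j)

theorem kummerVec_eq_baseChange {n : ℕ} (b : Module.Basis (Fin n) ℤ Λ) (κ : Λ →+ J)
    (c : Fin n → O) :
    kummerVec b κ c = κ.toIntLinearMap.baseChange O (∑ j, c j ⊗ₜ[ℤ] b j) := by
  unfold kummerVec
  rw [map_sum]
  rfl

theorem natCast_smul_tmul (m : ℕ) (c : O) (x : J) :
    (m : O) • (c ⊗ₜ[ℤ] x) = c ⊗ₜ[ℤ] (m • x) := by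
  rw [Nat.cast_smul_eq_nsmul, TensorProduct.smul_tmul', TensorProduct.smul_tmul]

theorem pow_smul_kummerVec {n : ℕ} (b : Module.Basis (Fin n) ℤ Λ) (κ : Λ →+ J)
    (c : Fin n → O) (p k : ℕ) (hκ : ∀ ψ : Λ, p ^ k • κ ψ = 0) :
    (p : O) ^ k • kummerVec b κ c = 0 := by
  unfold kummerVec
  rw [Finset.smul_sum]
  refine Finset.sum_eq_zero fun j _ => ?_
  have : ((p : O) ^ k) = ((p ^ k : ℕ) : O) := by push_cast; rfl
  rw [this, natCast_smul_tmul, hκ, TensorProduct.tmul_zero]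

theorem baseChange_kummerVec {n : ℕ} (b : Module.Basis (Fin n) ℤ Λ) (κ : Λ →+ J)
    (c : Fin n → O) (f : J →+ J) (e : Λ →ₗ[ℤ] Λ) (hfe : ∀ ψ : Λ, κ (e ψ) = f (κ ψ))
    (t : O) (hc : ∀ i : Fin n, ∑ j, ((b.repr (e (b j)) i : ℤ) : O) * c j = t * c i) :
    f.toIntLinearMap.baseChange O (kummerVec b κ c) = t • kummerVec b κ c := by
  have hexp : ∀ j, κ (e (b j)) = ∑ i, (b.repr (e (b j)) i) • κ (b i) := by
    intro j
    conv_lhs => rw [← b.sum_repr (e (b j))]
    rw [map_sum]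
    refine Finset.sum_congr rfl fun i _ => ?_
    rw [map_zsmul]
  unfold kummerVec
  rw [map_sum, Finset.smul_sum]
  calc ∑ j, f.toIntLinearMap.baseChange O (c j ⊗ₜ[ℤ] κ (b j))
      = ∑ j, ∑ i, (((b.repr (e (b j)) i : ℤ) : O) * c j) ⊗ₜ[ℤ] κ (b i) := by
        refine Finset.sum_congr rfl fun j _ => ?_
        rw [LinearMap.baseChange_tmul, AddMonoidHom.coe_toIntLinearMap, ← hfe, hexp,
          TensorProduct.tmul_sum]
        refine Finset.sum_congr rfl fun i _ => ?_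
        rw [← TensorProduct.smul_tmul, zsmul_eq_mul]
    _ = ∑ i, ∑ j, (((b.repr (e (b j)) i : ℤ) : O) * c j) ⊗ₜ[ℤ] κ (b i) :=
        Finset.sum_comm
    _ = ∑ i, t • (c i ⊗ₜ[ℤ] κ (b i)) := by
        refine Finset.sum_congr rfl fun i _ => ?_
        rw [← TensorProduct.sum_tmul, hc i, TensorProduct.smul_tmul', smul_eq_mul]

/-- If `ker κ ⊆ N Λ`, `N κ = 0` and `(1 ⊗ κ) u = 0`, then all coordinates of `u` are divisible
by `N`. -/
theorem dvd_of_kummerVec_eq_zero {n : ℕ} (b : Module.Basis (Fin n) ℤ Λ) (κ : Λ →+ J)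
    (N : ℕ) (hκ : ∀ ψ : Λ, N • κ ψ = 0) (hker : ∀ ψ : Λ, κ ψ = 0 → ∃ ψ' : Λ, ψ = N • ψ')
    (d : Fin n → O) (h : kummerVec b κ d = 0) (j : Fin n) : (N : O) ∣ d j := by
  haveI : Module.Free ℤ Λ := Module.Free.of_basis b
  haveI : Module.IsTorsionFree ℤ O :=
    Module.isTorsionFree_iff_smul_eq_zero.2 fun r m hrm => by
      rw [zsmul_eq_mul] at hrm
      rcases mul_eq_zero.1 hrm with h0 | h0
      · exact Or.inl (by exact_mod_cast h0)
      · exact Or.inr h0
  have hexact : Function.Exact ((N : ℤ) • (LinearMap.id : Λ →ₗ[ℤ] Λ)) κ.toIntLinearMap := by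
    intro y
    constructor
    · intro hy
      obtain ⟨ψ', hψ'⟩ := hker y hy
      exact ⟨ψ', by simp [hψ']⟩
    · rintro ⟨ψ', rfl⟩
      simp [hκ]
  have hexact' := Module.Flat.lTensor_exact O hexact
  rw [kummerVec_eq_baseChange] at h
  have h' : (κ.toIntLinearMap.lTensor O) (∑ j, d j ⊗ₜ[ℤ] b j) = 0 := h
  obtain ⟨u', hu'⟩ := (hexact' _).1 h'
  set bO := Algebra.TensorProduct.basis O b with hbO
  have h1 : bO.repr (∑ j, d j ⊗ₜ[ℤ] b j) j = d j := by
    have : (∑ j, d j ⊗ₜ[ℤ] b j) = ∑ j, d j • bO j := by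
      refine Finset.sum_congr rfl fun i _ => ?_
      rw [hbO, Algebra.TensorProduct.basis_apply, TensorProduct.smul_tmul', smul_eq_mul, mul_one]
    rw [this, bO.repr_sum_self]
  have h2 : (((N : ℤ) • (LinearMap.id : Λ →ₗ[ℤ] Λ)).lTensor O) u' = (N : O) • u' := by
    rw [LinearMap.lTensor_smul, LinearMap.lTensor_id, LinearMap.smul_apply, LinearMap.id_apply,
      natCast_zsmul]
    exact (Nat.cast_smul_eq_nsmul O N u').symm
  rw [h2] at hu'
  rw [← hu', map_smul, Finsupp.smul_apply, smul_eq_mul] at h1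
  exact ⟨_, h1.symm⟩

end Coords

/-- **Block (B) of S30-PADIC**: occurrence at every level from a faithful Hecke lattice with
Kummer embeddings. -/
theorem kummerOccurs : Fermat.Agent.H37.KummerOccursStatement := by
  intro p _ Λ₀ _ _ _ J _ ι T ev 𝒪 _ _ _ _ hp𝒪 a hfaith hκ k
  classical
  letI : Module (MvPolynomial ι ℤ) Λ₀ := Module.compHom Λ₀ ev
  have hsmul : ∀ (P : MvPolynomial ι ℤ) (x : Λ₀), P • x = ev P x := fun _ _ => rfl
  set b := Module.finBasis ℤ Λ₀ with hb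
  obtain ⟨c, hc0, hc⟩ := exists_eigen_coords b
    ((MvPolynomial.aeval a : MvPolynomial ι ℤ →ₐ[ℤ] 𝒪) : MvPolynomial ι ℤ →+* 𝒪) (by
      intro P hP
      apply hfaith
      exact LinearMap.ext fun x => hP x)
  have hp0 : (p : 𝒪) ≠ 0 := by exact_mod_cast (Fact.out : p.Prime).ne_zero
  obtain ⟨j₀, hj₀⟩ : ∃ j₀, c j₀ ≠ 0 := by
    by_contra h
    push Not at h
    exact hc0 (funext h)
  obtain ⟨m₀, hm₀⟩ : ∃ m₀ : ℕ, ¬ (p : 𝒪) ^ m₀ ∣ c j₀ := by
    by_contra h
    push Not at h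
    have hmem : c j₀ ∈ (⨅ i : ℕ, IsLocalRing.maximalIdeal 𝒪 ^ i : Ideal 𝒪) := by
      rw [Ideal.mem_iInf]
      intro i
      obtain ⟨d, hd⟩ := h i
      rw [hd]
      exact Ideal.mul_mem_right _ _ (Ideal.pow_mem_pow hp𝒪 i)
    rw [Ideal.iInf_pow_eq_bot_of_isLocalRing _ (IsLocalRing.maximalIdeal.isMaximal 𝒪).ne_top]
      at hmem
    exact hj₀ hmem
  obtain ⟨m, c', hcc', j₁, hj₁⟩ := exists_primitive_aux (p : 𝒪) m₀ c j₀ hm₀
  have hc' : ∀ (P : MvPolynomial ι ℤ) (i : Fin _),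
      ∑ j, ((b.repr (P • b j) i : ℤ) : 𝒪) * c' j = MvPolynomial.aeval a P * c' i := by
    intro P i
    have h1 := hc P i
    simp only [hcc'] at h1
    apply mul_left_cancel₀ (pow_ne_zero m hp0)
    rw [Finset.mul_sum]
    calc ∑ j, (p : 𝒪) ^ m * (((b.repr (P • b j) i : ℤ) : 𝒪) * c' j)
        = ∑ j, ((b.repr (P • b j) i : ℤ) : 𝒪) * ((p : 𝒪) ^ m * c' j) :=
          Finset.sum_congr rfl fun j _ => by ring
      _ = MvPolynomial.aeval a P * ((p : 𝒪) ^ m * c' i) := h1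
      _ = (p : 𝒪) ^ m * (MvPolynomial.aeval a P * c' i) := by ring
  obtain ⟨κ, hκ1, hκ2, hκ3⟩ := hκ k
  refine ⟨kummerVec b κ c', pow_smul_kummerVec b κ c' p (k + 1) hκ1, ?_, fun i => ?_⟩
  · intro h0
    have h1 : kummerVec b κ (fun j => (p : 𝒪) ^ k * c' j) = 0 := by
      rw [← h0]
      unfold kummerVec
      rw [Finset.smul_sum]
      refine Finset.sum_congr rfl fun j _ => ?_
      rw [TensorProduct.smul_tmul', smul_eq_mul]
    obtain ⟨e, he⟩ := dvd_of_kummerVec_eq_zero b κ (p ^ (k + 1)) hκ1 hκ2 _ h1 j₁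
    apply hj₁
    refine ⟨e, ?_⟩
    apply mul_left_cancel₀ (pow_ne_zero k hp0)
    rw [he]
    push_cast
    ring
  · refine baseChange_kummerVec b κ c' (T i) (ev (MvPolynomial.X i)) (fun ψ => hκ3 i ψ) (a i)
      (fun i' => ?_)
    have h1 := hc' (MvPolynomial.X i) i'
    rw [MvPolynomial.aeval_X] at h1
    exact h1

end Fermat.Agent.H31.Tate
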