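import Mathlib

/-!
# Saturated eigenlattices (helper31, P-ES / S30-PADIC)

`M` is a torsion-free module over a domain `O` with a linear action `ρ` of a group `G`, and
`v ∈ M`. `satSpan ρ v` is the saturation of the `O[G]`-span of `v`; it is `G`-stable, saturated,
and every endomorphism commuting with `G` which has `v` as an eigenvector acts on it as a scalar.
`satRep ρ v` is the restricted representation.
-/

set_option autoImplicit false
set_option linter.unusedSectionVars false

namespace Fermat.Agent.H31.Tate

section Saturation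

variable {O : Type*} [CommRing O] [IsDomain O] {M : Type*} [AddCommGroup M] [Module O M]
  {G : Type*} [Group G]

/-- The saturation of the `O[G]`-span of `v`. -/
def satSpan (ρ : G →* Module.End O M) (v : M) : Submodule O M where
  carrier := {x | ∃ c : O, c ≠ 0 ∧ c • x ∈ Submodule.span O (Set.range fun g : G => ρ g v)}
  add_mem' := by
    rintro x y ⟨c, hc, hx⟩ ⟨d, hd, hy⟩
    refine ⟨c * d, mul_ne_zero hc hd, ?_⟩
    have e : (c * d) • (x + y) = d • (c • x) + c • (d • y) := by
      rw [smul_add, smul_smul, smul_smul, mul_comm d c]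
    rw [e]
    exact add_mem (Submodule.smul_mem _ d hx) (Submodule.smul_mem _ c hy)
  zero_mem' := ⟨1, one_ne_zero, by simp⟩
  smul_mem' := by
    rintro a x ⟨c, hc, hx⟩
    exact ⟨c, hc, by rw [smul_comm]; exact Submodule.smul_mem _ a hx⟩

variable (ρ : G →* Module.End O M) (v : M)

theorem mem_satSpan_iff {x : M} : x ∈ satSpan ρ v ↔
    ∃ c : O, c ≠ 0 ∧ c • x ∈ Submodule.span O (Set.range fun g : G => ρ g v) := Iff.rfl

theorem self_mem_satSpan : v ∈ satSpan ρ v :=
  ⟨1, one_ne_zero, by
    rw [one_smul]
    exact Submodule.subset_span ⟨1, by simp⟩⟩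

theorem map_mem_span (g : G) {x : M}
    (hx : x ∈ Submodule.span O (Set.range fun g : G => ρ g v)) :
    ρ g x ∈ Submodule.span O (Set.range fun g : G => ρ g v) := by
  induction hx using Submodule.span_induction with
  | mem y hy =>
    obtain ⟨h, rfl⟩ := hy
    refine Submodule.subset_span ⟨g * h, ?_⟩
    simp [map_mul]
  | zero => simp
  | add y z _ _ hy hz => rw [map_add]; exact add_mem hy hz
  | smul a y _ hy => rw [map_smul]; exact Submodule.smul_mem _ a hy

theorem map_mem_satSpan (g : G) {x : M} (hx : x ∈ satSpan ρ v) : ρ g x ∈ satSpan ρ v := by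
  obtain ⟨c, hc, h⟩ := hx
  refine ⟨c, hc, ?_⟩
  rw [← map_smul]
  exact map_mem_span ρ v g h

theorem satSpan_saturated {c : O} (hc : c ≠ 0) {x : M} (h : c • x ∈ satSpan ρ v) :
    x ∈ satSpan ρ v := by
  obtain ⟨d, hd, h⟩ := h
  exact ⟨d * c, mul_ne_zero hd hc, by rwa [mul_smul]⟩

variable [Module.IsTorsionFree O M]

theorem eigen_on_satSpan (τ : Module.End O M) (θ : O)
    (hcomm : ∀ (g : G) (x : M), τ (ρ g x) = ρ g (τ x)) (hv : τ v = θ • v) {x : M}
    (hx : x ∈ satSpan ρ v) : τ x = θ • x := by
  obtain ⟨c, hc, h⟩ := hx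
  have hspan : ∀ y ∈ Submodule.span O (Set.range fun g : G => ρ g v), τ y = θ • y := by
    intro y hy
    induction hy using Submodule.span_induction with
    | mem y hy =>
      obtain ⟨g, rfl⟩ := hy
      show τ (ρ g v) = θ • ρ g v
      rw [hcomm, hv, map_smul]
    | zero => simp
    | add y z _ _ hy hz => rw [map_add, hy, hz, smul_add]
    | smul a y _ hy => rw [map_smul, hy, smul_comm]
  have h1 := hspan _ h
  rw [map_smul, smul_comm θ c x, ← sub_eq_zero, ← smul_sub] at h1
  rcases smul_eq_zero.1 h1 with h0 | h0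
  · exact absurd h0 hc
  · exact sub_eq_zero.1 h0

/-- The restricted representation on the saturated span. -/
def satRep : G →* Module.End O (satSpan ρ v) where
  toFun g := (ρ g).restrict fun _ hx => map_mem_satSpan ρ v g hx
  map_one' := by
    ext x
    simp
  map_mul' g h := by
    ext x
    simp [map_mul]

@[simp] theorem coe_satRep_apply (g : G) (x : satSpan ρ v) :
    ((satRep ρ v g x : satSpan ρ v) : M) = ρ g x := rfl

/-- Congruences modulo `c` are inherited by the saturated span. -/
theorem satRep_sub_eq_smul {g : G} {c : O} (h : ∀ x : M, ∃ y : M, ρ g x - x = c • y)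
    (x : satSpan ρ v) : ∃ y : satSpan ρ v, satRep ρ v g x - x = c • y := by
  obtain ⟨y, hy⟩ := h x
  by_cases hc : c = 0
  · refine ⟨0, Subtype.ext ?_⟩
    rw [hc, zero_smul] at hy
    simpa using hy
  · have hmem : c • y ∈ satSpan ρ v := by
      rw [← hy]
      exact sub_mem (map_mem_satSpan ρ v g x.2) x.2
    exact ⟨⟨y, satSpan_saturated ρ v hc hmem⟩, Subtype.ext (by simpa using hy)⟩

theorem satRep_eq_one {g : G} (h : ρ g = 1) : satRep ρ v g = 1 := by
  ext x
  simp [h]

/-- A quadratic relation with an operator `τ` commuting with `G`, of which `v` is an eigenvector,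
becomes a quadratic relation with scalar coefficients on the saturated span. -/
theorem satRep_quadratic (τ : Module.End O M) (θ : O)
    (hcomm : ∀ (g : G) (x : M), τ (ρ g x) = ρ g (τ x)) (hv : τ v = θ • v) {g : G} (k : O)
    (h : ∀ x : M, ρ g (ρ g x) - τ (ρ g x) + k • x = 0) :
    satRep ρ v g * satRep ρ v g - θ • satRep ρ v g + k • (1 : Module.End O (satSpan ρ v)) = 0 := by
  ext x
  have h1 := h x
  rw [eigen_on_satSpan ρ v τ θ hcomm hv (map_mem_satSpan ρ v g x.2)] at h1
  simpa using h1

end Saturation

section Lattice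

variable {O : Type*} [CommRing O] [IsDomain O] [IsPrincipalIdealRing O]
  {M : Type*} [AddCommGroup M] [Module O M] [Module.Free O M] [Module.Finite O M]
  {G : Type*} [Group G] (ρ : G →* Module.End O M) (v : M)

instance satSpan_finite : Module.Finite O (satSpan ρ v) := inferInstance

instance satSpan_free : Module.Free O (satSpan ρ v) := inferInstance

theorem satSpan_nontrivial (hv : v ≠ 0) : Nontrivial (satSpan ρ v) :=
  ⟨⟨⟨v, self_mem_satSpan ρ v⟩, 0, fun h => hv (congrArg Subtype.val h)⟩⟩

end Lattice

end Fermat.Agent.H31.Tate
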