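import Mathlib
import Fermat.Agent.H31.Tate.Finite
import Fermat.Agent.H31.Tate.Eigen
import Fermat.Agent.H31.Tate.Saturation

/-!
# The eigenlattice in the Tate module (helper31, P-ES / S30-PADIC)

Abstract form of the construction of the `p`-adic Galois representation attached to a Hecke
character: from a Kummer tower `Λ / p ^ k ↪ J[p ^ k]` of a faithful Hecke lattice `Λ` into the
torsion of `J`, and a character `θ` of the Hecke ring with values in `O`, we construct a nonzero
finite free `O`-module `V` with an action of `G` on which the Hecke operators act through `θ`.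
-/

set_option autoImplicit false
set_option linter.unusedSectionVars false
set_option linter.style.haveILetI false

open scoped TensorProduct

namespace Fermat.Agent.H31.Tate

variable {p : ℕ} [hp : Fact p.Prime]

section TateRep

variable {G : Type*} [Group G] {J : Type*} [AddCommGroup J] [DistribMulAction G J]

/-- The action of `g`, as an additive endomorphism. -/
def actHom (J : Type*) [AddCommGroup J] [DistribMulAction G J] (g : G) : J →+ J where
  toFun x := g • x
  map_zero' := smul_zero g
  map_add' := smul_add g

@[simp] theorem actHom_apply (g : G) (x : J) : actHom J g x = g • x := rfl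

variable (p) in
/-- The action of `G` on the Tate module. -/
noncomputable def tateRep (G : Type*) [Group G] (J : Type*) [AddCommGroup J]
    [DistribMulAction G J] : G →* Module.End ℤ_[p] (TateModule p J) where
  toFun g := TateModule.map (actHom J g)
  map_one' := by
    ext x k
    simp
  map_mul' g h := by
    ext x k
    simp [mul_smul]

@[simp] theorem tateRep_apply_apply (g : G) (x : TateModule p J) (k : ℕ) :
    (tateRep p G J g x).1 k = g • x.1 k := rfl

variable {O : Type*} [CommRing O] [Algebra ℤ_[p] O]

variable (p O) in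
/-- The action of `G` on `O ⊗ T_p J`. -/
noncomputable def tateRepO (G : Type*) [Group G] (J : Type*) [AddCommGroup J]
    [DistribMulAction G J] : G →* Module.End O (O ⊗[ℤ_[p]] TateModule p J) where
  toFun g := (tateRep p G J g).baseChange O
  map_one' := by rw [map_one, Module.End.one_eq_id, LinearMap.baseChange_id]; rfl
  map_mul' g h := by rw [map_mul, Module.End.mul_eq_comp, LinearMap.baseChange_comp]; rfl

@[simp] theorem tateRepO_tmul (g : G) (c : O) (x : TateModule p J) :
    tateRepO p O G J g (c ⊗ₜ[ℤ_[p]] x) = c ⊗ₜ[ℤ_[p]] tateRep p G J g x := rfl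

variable (p O) in
/-- The operator induced on `O ⊗ T_p J` by an additive endomorphism of `J`. -/
noncomputable def tateOp (f : J →+ J) : Module.End O (O ⊗[ℤ_[p]] TateModule p J) :=
  (TateModule.map f).baseChange O

@[simp] theorem tateOp_tmul (f : J →+ J) (c : O) (x : TateModule p J) :
    tateOp p O f (c ⊗ₜ[ℤ_[p]] x) = c ⊗ₜ[ℤ_[p]] TateModule.map f x := rfl

theorem tateOp_comm (f : J →+ J) (hf : ∀ (g : G) (x : J), f (g • x) = g • f x) (g : G)
    (w : O ⊗[ℤ_[p]] TateModule p J) :
    tateOp p O f (tateRepO p O G J g w) = tateRepO p O G J g (tateOp p O f w) := by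
  induction w using TensorProduct.induction_on with
  | zero => simp
  | tmul c x =>
    rw [tateRepO_tmul, tateOp_tmul, tateOp_tmul, tateRepO_tmul]
    congr 1
    ext k
    exact hf g _
  | add x y hx hy => rw [map_add, map_add, hx, hy, map_add, map_add]

/-- If `g` acts trivially on `J[p ^ n]`, it acts trivially on `O ⊗ T_p J` modulo `p ^ n`. -/
theorem tateRepO_sub_eq_smul {g : G} {n : ℕ} (h : ∀ x : J, p ^ n • x = 0 → g • x = x)
    (w : O ⊗[ℤ_[p]] TateModule p J) :
    ∃ y : O ⊗[ℤ_[p]] TateModule p J, tateRepO p O G J g w - w = ((p : O) ^ n) • y := by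
  induction w using TensorProduct.induction_on with
  | zero => exact ⟨0, by simp⟩
  | tmul c x =>
    obtain ⟨y, hy⟩ := TateModule.exists_map_sub_eq_pow_smul (f := actHom J g) (n := n) h x
    refine ⟨c ⊗ₜ[ℤ_[p]] y, ?_⟩
    rw [tateRepO_tmul, ← TensorProduct.tmul_sub]
    have : tateRep p G J g x - x = ((p : ℤ_[p]) ^ n) • y := hy
    rw [this, TensorProduct.tmul_smul, TensorProduct.smul_tmul', Algebra.smul_def, map_pow,
      map_natCast, TensorProduct.smul_tmul', smul_eq_mul]
  | add x y hx hy =>
    obtain ⟨a, ha⟩ := hx
    obtain ⟨b, hb⟩ := hy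
    refine ⟨a + b, ?_⟩
    rw [map_add, smul_add, ← ha, ← hb]
    abel

/-- A relation `g² - f g + k = 0` on the `p`-power torsion of `J` holds on `O ⊗ T_p J`. -/
theorem tateRepO_quadratic {g : G} (f : J →+ J) (k : ℕ)
    (h : ∀ x : J, (∃ n : ℕ, p ^ n • x = 0) → g • g • x - f (g • x) + k • x = 0)
    (w : O ⊗[ℤ_[p]] TateModule p J) :
    tateRepO p O G J g (tateRepO p O G J g w) - tateOp p O f (tateRepO p O G J g w)
      + (k : O) • w = 0 := by
  induction w using TensorProduct.induction_on with
  | zero => simp
  | tmul c x =>
    have hx : tateRep p G J g (tateRep p G J g x) - TateModule.map f (tateRep p G J g x)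
        + k • x = 0 := by
      ext j
      exact h _ ⟨j, TateModule.pow_smul_eq_zero x j⟩
    rw [tateRepO_tmul, tateRepO_tmul, tateOp_tmul, Nat.cast_smul_eq_nsmul,
      ← TensorProduct.tmul_sub, TensorProduct.smul_tmul', TensorProduct.smul_tmul,
      ← TensorProduct.tmul_add, hx, TensorProduct.tmul_zero]
  | add x y hx hy =>
    simp only [map_add, smul_add]
    have : ∀ a b c a' b' c' : O ⊗[ℤ_[p]] TateModule p J,
        a + a' - (b + b') + (c + c') = (a - b + c) + (a' - b' + c') := by
      intros; abel
    rw [this, hx, hy, add_zero]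

end TateRep

end Fermat.Agent.H31.Tate
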