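import Mathlib
import Fermat.Agent.H31.Tate.Lattice

/-!
# Kummer towers and the main abstract theorem (helper31, P-ES / S30-PADIC)

A *Kummer tower* is a compatible family of additive maps `emb k : Λ → J` with
`p • emb (k + 1) x = emb k x`, `emb 0 = 0` and `ker (emb 1) ⊆ p Λ`
(think of `Λ = Hom_par(Γ₀(N), ℤ)` and `emb k φ` = the divisor class with Kummer character
`exp (2 π i φ / p ^ k)`).

`exists_eigenlattice_of_tower`: the main abstract theorem.
-/

set_option autoImplicit false
set_option linter.unusedSectionVars false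
set_option linter.style.haveILetI false

open scoped TensorProduct

universe u v w

namespace Fermat.Agent.H31.Tate

variable {p : ℕ} [hp : Fact p.Prime]

/-- A Kummer tower of `Λ` in `J`. -/
structure KummerTower (p : ℕ) (Λ : Type*) (J : Type*) [AddCommGroup Λ] [AddCommGroup J] where
  /-- the maps `Λ → J[p ^ k]` -/
  emb : ℕ → (Λ →+ J)
  emb_zero : ∀ x, emb 0 x = 0
  emb_succ : ∀ k x, p • emb (k + 1) x = emb k x
  ker_one : ∀ x, emb 1 x = 0 → ∃ y, x = p • y

namespace KummerTower

variable {Λ : Type*} {J : Type*} [AddCommGroup Λ] [AddCommGroup J] (K : KummerTower p Λ J)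

/-- The map to the Tate module. -/
def toTate : Λ →+ TateModule p J where
  toFun x := ⟨fun k => K.emb k x, K.emb_zero x, fun k => K.emb_succ k x⟩
  map_zero' := by
    ext k
    exact map_zero (K.emb k)
  map_add' x y := by
    ext k
    exact map_add (K.emb k) x y

@[simp] theorem toTate_apply (x : Λ) (k : ℕ) : (K.toTate x).1 k = K.emb k x := rfl

theorem dvd_of_sum_smul_eq_zero {n : ℕ} (b : Module.Basis (Fin n) ℤ Λ) (g : Fin n → ℤ_[p])
    (hg : ∑ j, g j • K.toTate (b j) = 0) (j : Fin n) : (p : ℤ_[p]) ∣ g j := by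
  classical
  -- level one
  have h1 : ∑ i, (PadicInt.toZModPow 1 (g i)).val • K.emb 1 (b i) = 0 := by
    have := congrArg (TateModule.proj 1) hg
    rw [map_sum, map_zero] at this
    simpa [TateModule.smul_apply] using this
  have h2 : K.emb 1 (∑ i, ((PadicInt.toZModPow 1 (g i)).val : ℤ) • b i) = 0 := by
    rw [map_sum]
    rw [← h1]
    refine Finset.sum_congr rfl fun i _ => ?_
    rw [map_zsmul, natCast_zsmul]
  obtain ⟨y, hy⟩ := K.ker_one _ h2
  have h3 := congrArg (fun z => b.repr z j) hy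
  simp only [map_sum, map_smul, Module.Basis.repr_self, Finsupp.smul_single, smul_eq_mul,
    mul_one, Finsupp.coe_finsetSum, Finset.sum_apply, Finsupp.single_apply,
    Finset.sum_ite_eq', Finset.mem_univ, if_true, map_nsmul, Finsupp.smul_apply, nsmul_eq_mul]
    at h3
  have h4 : (p : ℤ) ∣ ((PadicInt.toZModPow 1 (g j)).val : ℤ) := ⟨_, h3⟩
  have h5' : p ∣ (PadicInt.toZModPow 1 (g j)).val := by exact_mod_cast h4
  have h5 : p ^ 1 ∣ (PadicInt.toZModPow 1 (g j)).val := (pow_one p).dvd.trans h5'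
  have h6 : PadicInt.toZModPow 1 (g j) = 0 := by
    rw [← ZMod.natCast_zmod_val (PadicInt.toZModPow 1 (g j)),
      (ZMod.natCast_eq_zero_iff _ _).2 h5]
  have h7 : g j ∈ RingHom.ker (PadicInt.toZModPow (p := p) 1) := h6
  rw [PadicInt.ker_toZModPow, pow_one, Ideal.mem_span_singleton] at h7
  exact h7

theorem pow_dvd_of_sum_smul_eq_zero {n : ℕ} (b : Module.Basis (Fin n) ℤ Λ) (m : ℕ) :
    ∀ g : Fin n → ℤ_[p], ∑ j, g j • K.toTate (b j) = 0 → ∀ j, (p : ℤ_[p]) ^ m ∣ g j := by
  induction m with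
  | zero => intro g _ j; simp
  | succ m ih =>
    intro g hg j
    have hdvd := K.dvd_of_sum_smul_eq_zero b g hg
    choose h hh using hdvd
    have hsum : ∑ j, h j • K.toTate (b j) = 0 := by
      have : (p : ℤ_[p]) • ∑ j, h j • K.toTate (b j) = 0 := by
        rw [Finset.smul_sum, ← hg]
        refine Finset.sum_congr rfl fun i _ => ?_
        rw [smul_smul, ← hh i]
      rcases TateModule.smul_eq_zero_imp this with h0 | h0
      · exact absurd h0 (by exact_mod_cast hp.out.ne_zero)
      · exact h0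
    rw [hh j, pow_succ']
    exact mul_dvd_mul_left _ (ih h hsum j)

/-- The images of a `ℤ`-basis of `Λ` are linearly independent over `ℤ_[p]`. -/
theorem linearIndependent {n : ℕ} (b : Module.Basis (Fin n) ℤ Λ) :
    LinearIndependent ℤ_[p] (fun j => K.toTate (b j)) := by
  rw [Fintype.linearIndependent_iff]
  intro g hg j
  rw [← PadicInt.ext_of_toZModPow]
  intro m
  have := K.pow_dvd_of_sum_smul_eq_zero b m g hg j
  rw [map_zero, ← RingHom.mem_ker, PadicInt.ker_toZModPow, Ideal.mem_span_singleton]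
  exact this

end KummerTower

section Main

variable {O : Type u} [CommRing O] [IsDomain O] [IsPrincipalIdealRing O] [CharZero O]
  [Algebra ℤ_[p] O] [Module.IsTorsionFree ℤ_[p] O]
  {G : Type w} [Group G] {J : Type v} [AddCommGroup J] [DistribMulAction G J]
  {ι : Type*} {P : Type*} [CommRing P] {Λ : Type*} [AddCommGroup Λ] [Module P Λ]
  [Module.Free ℤ Λ] [Module.Finite ℤ Λ]

theorem tateRepO_eq_one {g : G} (h : ∀ x : J, (∃ n : ℕ, p ^ n • x = 0) → g • x = x) :
    tateRepO p O G J g = 1 := by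
  have h1 : tateRep p G J g = 1 := by
    show TateModule.map (actHom J g) = 1
    rw [TateModule.map_congr (g := AddMonoidHom.id J) (fun x hx => h x hx), TateModule.map_id]
    rfl
  show (tateRep p G J g).baseChange O = 1
  rw [h1, Module.End.one_eq_id, LinearMap.baseChange_id]
  rfl

/-- The eigenvector in `O ⊗ T_p J` attached to coordinates `c`. -/
noncomputable def towerVec (K : KummerTower p Λ J) {n : ℕ} (b : Module.Basis (Fin n) ℤ Λ)
    (c : Fin n → O) : O ⊗[ℤ_[p]] TateModule p J :=
  ∑ j, c j ⊗ₜ[ℤ_[p]] K.toTate (b j)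

theorem towerVec_ne_zero (K : KummerTower p Λ J) {n : ℕ} (b : Module.Basis (Fin n) ℤ Λ)
    {c : Fin n → O} (hc : c ≠ 0) : towerVec K b c ≠ 0 := by
  have hli : LinearIndependent O (fun j => (1 : O) ⊗ₜ[ℤ_[p]] K.toTate (b j)) :=
    Module.Flat.linearIndependent_one_tmul (K.linearIndependent b)
  rw [Fintype.linearIndependent_iff] at hli
  intro h0
  apply hc
  funext j
  refine hli c ?_ j
  rw [← h0]
  unfold towerVec
  refine Finset.sum_congr rfl fun i _ => ?_
  rw [TensorProduct.smul_tmul', smul_eq_mul, mul_one]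

theorem tateOp_towerVec (K : KummerTower p Λ J) {n : ℕ} (b : Module.Basis (Fin n) ℤ Λ)
    (c : Fin n → O) (f : J →+ J) (a : P) (haf : ∀ k x, f (K.emb k x) = K.emb k (a • x))
    (t : O) (hc : ∀ i : Fin n, ∑ j, ((b.repr (a • b j) i : ℤ) : O) * c j = t * c i) :
    tateOp p O f (towerVec K b c) = t • towerVec K b c := by
  have hmap : ∀ x : Λ, TateModule.map f (K.toTate x) = K.toTate (a • x) := by
    intro x
    ext k
    exact haf k x
  have hexp : ∀ j, K.toTate (a • b j) = ∑ i, (b.repr (a • b j) i) • K.toTate (b i) := by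
    intro j
    conv_lhs => rw [← b.sum_repr (a • b j)]
    rw [map_sum]
    refine Finset.sum_congr rfl fun i _ => ?_
    rw [map_zsmul]
  unfold towerVec
  rw [map_sum, Finset.smul_sum]
  calc ∑ j, tateOp p O f (c j ⊗ₜ[ℤ_[p]] K.toTate (b j))
      = ∑ j, ∑ i, (((b.repr (a • b j) i : ℤ) : O) * c j) ⊗ₜ[ℤ_[p]] K.toTate (b i) := by
        refine Finset.sum_congr rfl fun j _ => ?_
        rw [tateOp_tmul, hmap, hexp, TensorProduct.tmul_sum]
        refine Finset.sum_congr rfl fun i _ => ?_
        rw [← TensorProduct.smul_tmul, zsmul_eq_mul]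
    _ = ∑ i, ∑ j, (((b.repr (a • b j) i : ℤ) : O) * c j) ⊗ₜ[ℤ_[p]] K.toTate (b i) :=
        Finset.sum_comm
    _ = ∑ i, t • (c i ⊗ₜ[ℤ_[p]] K.toTate (b i)) := by
        refine Finset.sum_congr rfl fun i _ => ?_
        rw [← TensorProduct.sum_tmul, hc i, TensorProduct.smul_tmul', smul_eq_mul]

/-- **Main abstract theorem.** From a Kummer tower of a faithful Hecke lattice to a nonzero
finite free `O`-module with an action of `G` on which the Hecke operators act through `θ`. -/
theorem exists_eigenlattice_of_tower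
    (T : ι → (J →+ J)) (hT : ∀ (i : ι) (g : G) (x : J), T i (g • x) = g • T i x)
    (hfin : {x : J | p • x = 0}.Finite)
    (K : KummerTower p Λ J) (gen : ι → P)
    (hKT : ∀ (i : ι) (k : ℕ) (x : Λ), T i (K.emb k x) = K.emb k (gen i • x))
    (θ : P →+* O) (hθ : ∀ a : P, (∀ x : Λ, a • x = 0) → θ a = 0) :
    ∃ (V : Type (max u v)) (_ : AddCommGroup V) (_ : Module O V) (_ : Module.Free O V)
      (_ : Module.Finite O V) (_ : Nontrivial V) (ρ : G →* Module.End O V),
      (∀ (g : G) (n : ℕ), (∀ x : J, p ^ n • x = 0 → g • x = x) →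
        ∀ v : V, ∃ y : V, ρ g v - v = ((p : O) ^ n) • y) ∧
      (∀ g : G, (∀ x : J, (∃ n : ℕ, p ^ n • x = 0) → g • x = x) → ρ g = 1) ∧
      (∀ (g : G) (i : ι) (k : ℕ),
        (∀ x : J, (∃ n : ℕ, p ^ n • x = 0) → g • g • x - T i (g • x) + k • x = 0) →
        ρ g * ρ g - θ (gen i) • ρ g + (k : O) • (1 : Module.End O V) = 0) := by
  haveI : Module.Finite ℤ_[p] (TateModule p J) := TateModule.finite_of_finite_torsion hfin
  haveI : Module.Free ℤ_[p] (TateModule p J) := TateModule.free_of_finite_torsion hfin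
  set b := Module.finBasis ℤ Λ with hb
  obtain ⟨c, hc0, hc⟩ := exists_eigen_coords b θ hθ
  set vT := towerVec (p := p) (O := O) K b c with hvT
  have hv0 : vT ≠ 0 := towerVec_ne_zero K b hc0
  have heig : ∀ i : ι, tateOp p O (T i) vT = θ (gen i) • vT := fun i =>
    tateOp_towerVec K b c (T i) (gen i) (hKT i) (θ (gen i)) (hc (gen i))
  refine ⟨satSpan (tateRepO p O G J) vT, inferInstance, inferInstance, inferInstance,
    inferInstance, satSpan_nontrivial _ _ hv0, satRep (tateRepO p O G J) vT, ?_, ?_, ?_⟩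
  · intro g n h v
    exact satRep_sub_eq_smul _ _ (tateRepO_sub_eq_smul h) v
  · intro g h
    exact satRep_eq_one _ _ (tateRepO_eq_one h)
  · intro g i k h
    exact satRep_quadratic _ _ (tateOp p O (T i)) (θ (gen i))
      (fun g x => tateOp_comm (T i) (hT i) g x) (heig i) (k : O)
      (fun x => tateRepO_quadratic (T i) k h x)

end Main

end Fermat.Agent.H31.Tate
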